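/-
S30 (p-adic Eichler–Shimura), helper649: the OCCURRENCE lemma (Occ).

A commutative ring `T` acting FAITHFULLY on a lattice `ℤ^ι` by integer matrices `τ`;
every ring homomorphism `χ` from `T` to a field / domain / local PID occurs as an
eigensystem of `τ` on `K^ι` / `𝒪^ι` (any characteristic).  Mathlib only.

Main statements (namespace `Fermat.Agent.S30.H649`):
* `exists_eigenfunctional`            faithful finite module, field target, additive functional
* `exists_vecMul_eigenvector`         row vectors over a field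
* `exists_mulVec_eigenvector`         column vectors over a field
* `exists_mulVec_eigenvector_domain`  column vectors over a domain
* `exists_mulVec_eigenvector_primitive` local PID (e.g. DVR): some coordinate is a unit
-/
import Mathlib

set_option autoImplicit false

namespace Fermat.Agent.S30.H649

open scoped TensorProduct


/-- **Eigen-functional on a faithful finite module.**  `R` a commutative ring, `M` a finite faithful
`R`-module, `χ : R →+* K` a ring homomorphism to a field.  Then there is a nonzero additive map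
`φ : M →+ K` with `φ (r • m) = χ r * φ m`. -/
theorem exists_eigenfunctional {R : Type*} [CommRing R] {M : Type*} [AddCommGroup M] [Module R M]
    [Module.Finite R M] (hfaith : ∀ r : R, (∀ m : M, r • m = 0) → r = 0)
    {K : Type*} [Field K] (χ : R →+* K) :
    ∃ φ : M →+ K, φ ≠ 0 ∧ ∀ (r : R) (m : M), φ (r • m) = χ r * φ m := by
  classical
  -- the prime `𝔭 = ker χ`
  have hprime : (RingHom.ker χ).IsPrime := RingHom.ker_isPrime χ
  let P : PrimeSpectrum R := ⟨RingHom.ker χ, hprime⟩
  have hann : Module.annihilator R M = ⊥ := by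
    rw [eq_bot_iff]
    intro r hr
    rw [Module.mem_annihilator] at hr
    exact (Submodule.mem_bot R).mpr (hfaith r hr)
  have hsupp : P ∈ Module.support R M := by
    rw [Module.mem_support_iff_of_finite, hann]
    exact bot_le
  have hnt : Nontrivial ((RingHom.ker χ).ResidueField ⊗[R] M) :=
    (Module.mem_support_iff_nontrivial_residueField_tensorProduct P).mp hsupp
  obtain ⟨x, hx⟩ := exists_ne (0 : (RingHom.ker χ).ResidueField ⊗[R] M)
  obtain ⟨ψ, hψ⟩ := Module.Projective.exists_dual_ne_zero (RingHom.ker χ).ResidueField hx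
  -- the embedding of the residue field into `K`
  let ι : (RingHom.ker χ).ResidueField →+* K :=
    Ideal.ResidueField.lift (RingHom.ker χ) χ le_rfl (by
      intro t ht
      rw [Submonoid.mem_comap]
      exact (IsUnit.mem_submonoid_iff _).mpr
        (isUnit_iff_ne_zero.mpr (fun h => ht ((RingHom.mem_ker).mpr h))))
  have hι : ∀ t : R, ι (algebraMap R _ t) = χ t := fun t =>
    Ideal.ResidueField.lift_algebraMap _ _ _ _ t
  let φ : M →+ K :=
    { toFun := fun m => ι (ψ ((1 : (RingHom.ker χ).ResidueField) ⊗ₜ[R] m))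
      map_zero' := by rw [TensorProduct.tmul_zero, map_zero, map_zero]
      map_add' := fun a b => by rw [TensorProduct.tmul_add, map_add, map_add] }
  have hφ : ∀ m, φ m = ι (ψ ((1 : (RingHom.ker χ).ResidueField) ⊗ₜ[R] m)) := fun _ => rfl
  have hone : ∀ (a : (RingHom.ker χ).ResidueField) (m : M),
      a ⊗ₜ[R] m = a • ((1 : (RingHom.ker χ).ResidueField) ⊗ₜ[R] m) := by
    intro a m
    rw [TensorProduct.smul_tmul', smul_eq_mul, mul_one]
  refine ⟨φ, ?_, ?_⟩
  · intro h0
    apply hψ
    have hpure : ∀ (a : (RingHom.ker χ).ResidueField) (m : M), ψ (a ⊗ₜ[R] m) = 0 := by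
      intro a m
      have h1 : ι (ψ ((1 : (RingHom.ker χ).ResidueField) ⊗ₜ[R] m)) = 0 := by
        rw [← hφ, h0]; rfl
      have h2 : ψ ((1 : (RingHom.ker χ).ResidueField) ⊗ₜ[R] m) = 0 :=
        (map_eq_zero ι).mp h1
      rw [hone, map_smul, h2, smul_zero]
    have hall : ∀ y : (RingHom.ker χ).ResidueField ⊗[R] M, ψ y = 0 := by
      intro y
      induction y using TensorProduct.induction_on with
      | zero => exact map_zero ψ
      | tmul a m => exact hpure a m
      | add x y hx hy => rw [map_add, hx, hy, add_zero]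
    exact hall x
  · intro r m
    rw [hφ, hφ]
    have h3 : (1 : (RingHom.ker χ).ResidueField) ⊗ₜ[R] (r • m)
        = (algebraMap R (RingHom.ker χ).ResidueField r) •
          ((1 : (RingHom.ker χ).ResidueField) ⊗ₜ[R] m) := by
      rw [← hone, TensorProduct.tmul_smul, TensorProduct.smul_tmul', Algebra.smul_def, mul_one]
    rw [h3, map_smul, smul_eq_mul, map_mul, hι]


/-- An additive map `(ι → ℤ) →+ K` is determined by its values on the standard basis. -/
theorem addMonoidHom_pi_int_apply {ι : Type*} [Fintype ι] [DecidableEq ι] {K : Type*} [Ring K]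
    (φ : (ι → ℤ) →+ K) (v : ι → ℤ) :
    φ v = ∑ i, (v i : K) * φ (Pi.single i 1) := by
  have hv : v = ∑ i, v i • (Pi.single i (1 : ℤ) : ι → ℤ) := by
    ext j
    simp [Finset.sum_apply, Pi.single_apply]
  conv_lhs => rw [hv]
  rw [map_sum]
  refine Finset.sum_congr rfl fun i _ => ?_
  rw [map_zsmul, zsmul_eq_mul]

/-- **(Occ), row-vector form over a field.**  A commutative ring `T` acting faithfully on the
lattice `ℤ^ι` through integer matrices; any ring homomorphism `χ : T →+* K` to a field (of any
characteristic) occurs as an eigensystem of the transposed action on `K^ι`. -/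
theorem exists_vecMul_eigenvector {T : Type*} [CommRing T] {ι : Type*} [Fintype ι] [DecidableEq ι]
    (τ : T →+* Matrix ι ι ℤ) (hτ : Function.Injective τ)
    {K : Type*} [Field K] (χ : T →+* K) :
    ∃ w : ι → K, w ≠ 0 ∧
      ∀ t, Matrix.vecMul w ((τ t).map (Int.cast : ℤ → K)) = χ t • w := by
  classical
  let instMod : Module T (ι → ℤ) :=
    { smul := fun t v => Matrix.mulVec (τ t) v
      one_smul := fun v => by
        show Matrix.mulVec (τ 1) v = v
        rw [map_one, Matrix.one_mulVec]
      mul_smul := fun s t v => by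
        show Matrix.mulVec (τ (s * t)) v = Matrix.mulVec (τ s) (Matrix.mulVec (τ t) v)
        rw [map_mul, Matrix.mulVec_mulVec]
      smul_zero := fun t => by
        show Matrix.mulVec (τ t) 0 = 0
        rw [Matrix.mulVec_zero]
      smul_add := fun t v w => by
        show Matrix.mulVec (τ t) (v + w) = Matrix.mulVec (τ t) v + Matrix.mulVec (τ t) w
        rw [Matrix.mulVec_add]
      add_smul := fun s t v => by
        show Matrix.mulVec (τ (s + t)) v = Matrix.mulVec (τ s) v + Matrix.mulVec (τ t) v
        rw [map_add, Matrix.add_mulVec]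
      zero_smul := fun v => by
        show Matrix.mulVec (τ 0) v = 0
        rw [map_zero, Matrix.zero_mulVec] }
  have hsmul : ∀ (t : T) (v : ι → ℤ), t • v = Matrix.mulVec (τ t) v := fun _ _ => rfl
  have : IsScalarTower ℤ T (ι → ℤ) := ⟨fun n t v => by
    rw [hsmul, hsmul, map_zsmul, Matrix.smul_mulVec]⟩
  have : Module.Finite T (ι → ℤ) := Module.Finite.of_restrictScalars_finite ℤ T (ι → ℤ)
  have hfaith : ∀ t : T, (∀ v : ι → ℤ, t • v = 0) → t = 0 := by
    intro t ht
    apply hτ
    rw [map_zero]
    ext i j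
    have h := congrFun (ht (Pi.single j 1)) i
    rw [hsmul, Matrix.mulVec_single_one] at h
    simpa using h
  obtain ⟨φ, hφ0, hφ⟩ := exists_eigenfunctional hfaith χ
  refine ⟨fun i => φ (Pi.single i 1), ?_, ?_⟩
  · intro hw
    apply hφ0
    refine AddMonoidHom.ext fun v => ?_
    rw [addMonoidHom_pi_int_apply φ v]
    have : ∀ i, φ (Pi.single i 1) = 0 := fun i => congrFun hw i
    simp [this]
  · intro t
    ext j
    have h1 := hφ t (Pi.single j 1)
    rw [hsmul, addMonoidHom_pi_int_apply φ] at h1
    simp only [Matrix.vecMul, dotProduct, Matrix.map_apply, Pi.smul_apply, smul_eq_mul]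
    rw [← h1]
    refine Finset.sum_congr rfl fun i _ => ?_
    rw [Matrix.mulVec_single_one, mul_comm]
    rfl


/-- The transposed representation of a commutative ring (again a ring homomorphism). -/
def transposeHom {T : Type*} [CommRing T] {ι : Type*} [Fintype ι] [DecidableEq ι]
    (τ : T →+* Matrix ι ι ℤ) : T →+* Matrix ι ι ℤ where
  toFun t := (τ t).transpose
  map_one' := by rw [map_one, Matrix.transpose_one]
  map_mul' s t := by
    show (τ (s * t)).transpose = (τ s).transpose * (τ t).transpose
    rw [← Matrix.transpose_mul, ← map_mul, mul_comm s t]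
  map_zero' := by rw [map_zero, Matrix.transpose_zero]
  map_add' s t := by
    show (τ (s + t)).transpose = (τ s).transpose + (τ t).transpose
    rw [map_add, Matrix.transpose_add]

theorem transposeHom_apply {T : Type*} [CommRing T] {ι : Type*} [Fintype ι] [DecidableEq ι]
    (τ : T →+* Matrix ι ι ℤ) (t : T) : transposeHom τ t = (τ t).transpose := rfl

theorem transposeHom_injective {T : Type*} [CommRing T] {ι : Type*} [Fintype ι] [DecidableEq ι]
    (τ : T →+* Matrix ι ι ℤ) (hτ : Function.Injective τ) :
    Function.Injective (transposeHom τ) := fun s t h =>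
  hτ (Matrix.transpose_injective h)

/-- **(Occ), column-vector form over a field** (any characteristic). -/
theorem exists_mulVec_eigenvector {T : Type*} [CommRing T] {ι : Type*} [Fintype ι] [DecidableEq ι]
    (τ : T →+* Matrix ι ι ℤ) (hτ : Function.Injective τ)
    {K : Type*} [Field K] (χ : T →+* K) :
    ∃ w : ι → K, w ≠ 0 ∧
      ∀ t, Matrix.mulVec ((τ t).map (Int.cast : ℤ → K)) w = χ t • w := by
  obtain ⟨w, hw0, hw⟩ := exists_vecMul_eigenvector (transposeHom τ) (transposeHom_injective τ hτ) χ
  refine ⟨w, hw0, fun t => ?_⟩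
  have h := hw t
  rw [transposeHom_apply, Matrix.transpose_map, Matrix.vecMul_transpose] at h
  exact h

/-- **(Occ) over a domain** (any characteristic): the eigensystem `χ : T →+* 𝒪` occurs in `𝒪^ι`. -/
theorem exists_mulVec_eigenvector_domain {T : Type*} [CommRing T] {ι : Type*} [Fintype ι]
    [DecidableEq ι] (τ : T →+* Matrix ι ι ℤ) (hτ : Function.Injective τ)
    {𝒪 : Type*} [CommRing 𝒪] [IsDomain 𝒪] (χ : T →+* 𝒪) :
    ∃ v : ι → 𝒪, v ≠ 0 ∧
      ∀ t, Matrix.mulVec ((τ t).map (Int.cast : ℤ → 𝒪)) v = χ t • v := by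
  classical
  obtain ⟨w, hw0, hw⟩ := exists_mulVec_eigenvector τ hτ
    ((algebraMap 𝒪 (FractionRing 𝒪)).comp χ)
  obtain ⟨b, hb⟩ := IsLocalization.exist_integer_multiples_of_finite (nonZeroDivisors 𝒪) w
  have hb' : ∀ i, ∃ c : 𝒪, algebraMap 𝒪 (FractionRing 𝒪) c = (b : 𝒪) • w i := fun i => hb i
  choose v hv using hb'
  have hinj : Function.Injective (algebraMap 𝒪 (FractionRing 𝒪)) :=
    IsFractionRing.injective 𝒪 (FractionRing 𝒪)
  have hb0 : algebraMap 𝒪 (FractionRing 𝒪) (b : 𝒪) ≠ 0 := by
    intro h
    exact nonZeroDivisors.coe_ne_zero b (hinj (by rw [h, map_zero]))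
  have hv' : ∀ i, algebraMap 𝒪 (FractionRing 𝒪) (v i)
      = algebraMap 𝒪 (FractionRing 𝒪) (b : 𝒪) * w i := by
    intro i
    rw [hv i, Algebra.smul_def]
  refine ⟨v, ?_, fun t => ?_⟩
  · intro h0
    apply hw0
    funext i
    have h1 := hv' i
    rw [h0, Pi.zero_apply, map_zero] at h1
    rcases mul_eq_zero.mp h1.symm with h | h
    · exact absurd h hb0
    · exact h
  · funext i
    apply hinj
    have h1 := congrFun (hw t) i
    simp only [Matrix.mulVec, dotProduct, Matrix.map_apply, Pi.smul_apply, smul_eq_mul,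
      RingHom.comp_apply] at h1 ⊢
    rw [map_sum, map_mul, hv' i, mul_left_comm, ← h1, Finset.mul_sum]
    refine Finset.sum_congr rfl fun j _ => ?_
    rw [map_mul, hv' j, map_intCast]
    ring

/-- Over a local principal ideal domain (e.g. a discrete valuation ring) the eigenvector can be
chosen **primitive**: one of its coordinates is a unit. -/
theorem exists_mulVec_eigenvector_primitive {T : Type*} [CommRing T] {ι : Type*} [Fintype ι]
    [DecidableEq ι] (τ : T →+* Matrix ι ι ℤ) (hτ : Function.Injective τ)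
    {𝒪 : Type*} [CommRing 𝒪] [IsDomain 𝒪] [IsPrincipalIdealRing 𝒪] [IsLocalRing 𝒪]
    (χ : T →+* 𝒪) :
    ∃ v : ι → 𝒪, (∃ i, IsUnit (v i)) ∧
      ∀ t, Matrix.mulVec ((τ t).map (Int.cast : ℤ → 𝒪)) v = χ t • v := by
  classical
  obtain ⟨v, hv0, hv⟩ := exists_mulVec_eigenvector_domain τ hτ χ
  -- the content ideal of `v` is principal, generated by `a`
  let I : Ideal 𝒪 := Ideal.span (Set.range v)
  obtain ⟨a, ha⟩ : ∃ a, I = Ideal.span {a} := ⟨_, (Ideal.span_singleton_generator I).symm⟩
  have hmem : ∀ i, v i ∈ I := fun i => Ideal.subset_span ⟨i, rfl⟩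
  have hdvd : ∀ i, ∃ c, v i = a * c := by
    intro i
    have := hmem i
    rw [ha, Ideal.mem_span_singleton'] at this
    obtain ⟨c, hc⟩ := this
    exact ⟨c, by rw [← hc, mul_comm]⟩
  choose v' hv' using hdvd
  have ha0 : a ≠ 0 := by
    intro h
    apply hv0
    funext i
    rw [hv' i, h, zero_mul, Pi.zero_apply]
  refine ⟨v', ?_, fun t => ?_⟩
  · by_contra hcon
    push Not at hcon
    have hle : I ≤ Ideal.span {a} * IsLocalRing.maximalIdeal 𝒪 := by
      rw [Ideal.span_le]
      rintro _ ⟨i, rfl⟩
      rw [SetLike.mem_coe, hv' i]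
      exact Ideal.mem_span_singleton_mul.mpr
        ⟨v' i, (IsLocalRing.mem_maximalIdeal _).mpr (hcon i), rfl⟩
    have haI : a ∈ I := by rw [ha]; exact Ideal.mem_span_singleton_self a
    obtain ⟨m, hm, hma⟩ := Ideal.mem_span_singleton_mul.mp (hle haI)
    have h1 : a * m = a * 1 := by rw [mul_one]; exact hma
    have h2 : m = 1 := mul_left_cancel₀ ha0 h1
    rw [h2] at hm
    exact (IsLocalRing.mem_maximalIdeal _).mp hm isUnit_one
  · funext i
    have h1 := congrFun (hv t) i
    simp only [Matrix.mulVec, dotProduct, Matrix.map_apply, Pi.smul_apply, smul_eq_mul] at h1 ⊢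
    apply mul_left_cancel₀ ha0
    rw [Finset.mul_sum, mul_left_comm, ← hv' i, ← h1]
    refine Finset.sum_congr rfl fun j _ => ?_
    rw [hv' j]
    ring

end Fermat.Agent.S30.H649
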