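/-
S30 (p-adic Eichler–Shimura), helper649: PIECE `Tate` of the S30 skeleton (squad-lead helper49).

`exists_adicFrobModule_of_lattice` has EXACTLY the type of the skeleton statement
`Fermat.Agent.S30.exists_adicFrobModule_of_tate` (with `GQ` unfolded).  It is the landed abstract
Tate eigenmodule `Fermat.Agent.S30.H529.exists_adic_galois_eigenmodule` fed with the compatible
eigen-sequence `n ↦ (κ (n+1)).baseChange 𝒪 v`; the only new mathematics is that this sequence is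
nonzero: `𝒪` is flat over `ℤ`, so `(κ n).baseChange 𝒪 v = 0` forces `v ∈ pⁿ (𝒪 ⊗ Λ)`, and
`⋂ₙ 𝔪ⁿ (𝒪 ⊗ Λ) = 0` (Krull).
-/
import Fermat.Agent.S30.H529.AdicEigen

set_option autoImplicit false

namespace Fermat.Agent.S30.H649

open TensorProduct IsLocalRing

section Nonvanishing

variable {𝒪 : Type*} [CommRing 𝒪] [IsDomain 𝒪] [IsDiscreteValuationRing 𝒪] [CharZero 𝒪]
variable {J : Type*} [AddCommGroup J] {Λ : Type*} [AddCommGroup Λ]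

omit [IsDomain 𝒪] [IsDiscreteValuationRing 𝒪] [CharZero 𝒪] in
/-- An integer acts on `𝒪 ⊗[ℤ] X` as its image in `𝒪`. -/
theorem intCast_smul_tensor {X : Type*} [AddCommGroup X] (m : ℤ) (w : 𝒪 ⊗[ℤ] X) :
    (m : 𝒪) • w = m • w :=
  Int.cast_smul_eq_zsmul 𝒪 m w

omit [IsDiscreteValuationRing 𝒪] in
/-- If the kernel of `κ` is `m Λ`, the kernel of `1 ⊗ κ` on `𝒪 ⊗ Λ` is `m (𝒪 ⊗ Λ)`
(flatness of `𝒪` over `ℤ`). -/
theorem exists_eq_smul_of_baseChange_eq_zero (m : ℤ) (κ : Λ →ₗ[ℤ] J)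
    (hκ : ∀ x : Λ, κ x = 0 ↔ ∃ y : Λ, x = m • y) (v : 𝒪 ⊗[ℤ] Λ)
    (hv : κ.baseChange 𝒪 v = 0) : ∃ z : 𝒪 ⊗[ℤ] Λ, v = (m : 𝒪) • z := by
  have hex : Function.Exact (m • (LinearMap.id : Λ →ₗ[ℤ] Λ)) κ := by
    intro x
    rw [hκ x]
    constructor
    · rintro ⟨y, rfl⟩
      exact ⟨y, rfl⟩
    · rintro ⟨y, rfl⟩
      exact ⟨y, rfl⟩
  have hex2 := Module.Flat.lTensor_exact 𝒪 hex
  have h1 : κ.lTensor 𝒪 v = 0 := hv
  obtain ⟨z, hz⟩ := (hex2 v).mp h1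
  refine ⟨z, ?_⟩
  rw [← hz, LinearMap.lTensor_smul, LinearMap.lTensor_id, LinearMap.smul_apply,
    LinearMap.id_apply, intCast_smul_tensor]

/-- **Nonvanishing of the Kummer sequence.**  If `ker (κ n) = pⁿ Λ` for all `n` and `p ∈ 𝔪`, a
nonzero `v ∈ 𝒪 ⊗ Λ` has a nonzero image under some `1 ⊗ κ n`. -/
theorem exists_baseChange_ne_zero [Module.Finite ℤ Λ] {p : ℕ}
    (hp𝒪 : (p : 𝒪) ∈ maximalIdeal 𝒪) (κ : ℕ → Λ →ₗ[ℤ] J)
    (hκ0 : ∀ (n : ℕ) (x : Λ), κ n x = 0 ↔ ∃ y : Λ, x = ((p : ℤ) ^ n) • y)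
    (v : 𝒪 ⊗[ℤ] Λ) (hv : v ≠ 0) : ∃ n : ℕ, (κ n).baseChange 𝒪 v ≠ 0 := by
  by_contra hcon
  push Not at hcon
  apply hv
  have hmem : ∀ n : ℕ, v ∈ (maximalIdeal 𝒪 ^ n • ⊤ : Submodule 𝒪 (𝒪 ⊗[ℤ] Λ)) := by
    intro n
    obtain ⟨z, hz⟩ := exists_eq_smul_of_baseChange_eq_zero (𝒪 := 𝒪) ((p : ℤ) ^ n) (κ n)
      (hκ0 n) v (hcon n)
    rw [hz]
    refine Submodule.smul_mem_smul ?_ Submodule.mem_top
    have : (((p : ℤ) ^ n : ℤ) : 𝒪) = (p : 𝒪) ^ n := by push_cast; rfl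
    rw [this]
    exact Ideal.pow_mem_pow hp𝒪 n
  have hbot : (⨅ i : ℕ, (maximalIdeal 𝒪 ^ i • ⊤ : Submodule 𝒪 (𝒪 ⊗[ℤ] Λ))) = ⊥ :=
    Ideal.iInf_pow_smul_eq_bot_of_isLocalRing (maximalIdeal 𝒪)
      (Ideal.IsMaximal.ne_top inferInstance)
  have h2 : v ∈ (⨅ i : ℕ, (maximalIdeal 𝒪 ^ i • ⊤ : Submodule 𝒪 (𝒪 ⊗[ℤ] Λ))) :=
    (Submodule.mem_iInf _).mpr hmem
  rw [hbot] at h2
  exact (Submodule.mem_bot 𝒪).mp h2

end Nonvanishing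

section Main

/-- **PIECE `Tate`** (type of `Fermat.Agent.S30.exists_adicFrobModule_of_tate`, `GQ` unfolded). -/
theorem exists_adicFrobModule_of_lattice
    {𝒪 : Type} [CommRing 𝒪] [IsDomain 𝒪] [IsDiscreteValuationRing 𝒪]
    [IsAdicComplete (IsLocalRing.maximalIdeal 𝒪) 𝒪] [Finite (IsLocalRing.ResidueField 𝒪)]
    [CharZero 𝒪] {p : ℕ} (hp : p.Prime) (hp𝒪 : (p : 𝒪) ∈ IsLocalRing.maximalIdeal 𝒪)
    {J : Type} [AddCommGroup J]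
    [DistribMulAction (AlgebraicClosure ℚ ≃ₐ[ℚ] AlgebraicClosure ℚ) J]
    {ι : Type} (T : ι → J →ₗ[ℤ] J)
    (hTG : ∀ (i : ι) (σ : AlgebraicClosure ℚ ≃ₐ[ℚ] AlgebraicClosure ℚ) (x : J),
      T i (σ • x) = σ • T i x)
    (hfin : Finite {x : J // (p : ℤ) • x = 0})
    (hsmooth : ∀ x : J, (∃ n : ℕ, ((p : ℤ) ^ n) • x = 0) →
      ∃ L : IntermediateField ℚ (AlgebraicClosure ℚ), FiniteDimensional ℚ L ∧
        ∀ σ : AlgebraicClosure ℚ ≃ₐ[ℚ] AlgebraicClosure ℚ, (∀ y ∈ L, σ y = y) → σ • x = x)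
    {Λ : Type} [AddCommGroup Λ] [Module.Free ℤ Λ] [Module.Finite ℤ Λ]
    (TΛ : ι → Λ →ₗ[ℤ] Λ) (κ : ℕ → Λ →ₗ[ℤ] J)
    (hκ0 : ∀ (n : ℕ) (x : Λ), κ n x = 0 ↔ ∃ y : Λ, x = ((p : ℤ) ^ n) • y)
    (hκs : ∀ (n : ℕ) (x : Λ), (p : ℤ) • κ (n + 1) x = κ n x)
    (hκT : ∀ (i : ι) (n : ℕ) (x : Λ), κ n (TΛ i x) = T i (κ n x))
    (a : ι → 𝒪) (v : 𝒪 ⊗[ℤ] Λ) (hv : v ≠ 0)
    (hva : ∀ i : ι, (TΛ i).baseChange 𝒪 v = a i • v) :
    ∃ (M : Type) (_ : AddCommGroup M) (_ : Module 𝒪 M) (_ : Module.Free 𝒪 M)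
      (_ : Module.Finite 𝒪 M)
      (ρ : (AlgebraicClosure ℚ ≃ₐ[ℚ] AlgebraicClosure ℚ) →* Module.End 𝒪 M),
      Nontrivial M ∧ GaloisActionIsAdicContinuous 𝒪 ρ ∧
      (∀ σ : AlgebraicClosure ℚ ≃ₐ[ℚ] AlgebraicClosure ℚ,
        (∀ x : J, (∃ n : ℕ, ((p : ℤ) ^ n) • x = 0) → σ • x = x) → ρ σ = 1) ∧
      (∀ (σ : AlgebraicClosure ℚ ≃ₐ[ℚ] AlgebraicClosure ℚ) (i : ι) (c : ℤ),
        (∀ x : J, (∃ n : ℕ, ((p : ℤ) ^ n) • x = 0) →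
          σ • σ • x - T i (σ • x) + c • x = 0) →
        ρ σ * ρ σ - a i • ρ σ + (c : 𝒪) • (1 : Module.End 𝒪 M) = 0) := by
  classical
  -- conversions between `ℤ`- and `ℕ`-torsion
  have hpow : ∀ (n : ℕ) (x : J), ((p : ℤ) ^ n) • x = p ^ n • x := by
    intro n x
    rw [← Nat.cast_pow, natCast_zsmul]
  have htors : ∀ x : J, (∃ n : ℕ, p ^ n • x = 0) ↔ (∃ n : ℕ, ((p : ℤ) ^ n) • x = 0) := by
    intro x
    constructor
    · rintro ⟨n, hn⟩; exact ⟨n, by rw [hpow]; exact hn⟩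
    · rintro ⟨n, hn⟩; exact ⟨n, by rw [← hpow]; exact hn⟩
  -- the operators as additive maps
  let T' : ι → J →+ J := fun i => (T i).toAddMonoidHom
  have hT' : ∀ i, (T' i).toIntLinearMap = T i := fun i => LinearMap.ext fun _ => rfl
  have hfin' : {x : J | p • x = 0}.Finite := by
    have h1 : {x : J | (p : ℤ) • x = 0}.Finite := Set.finite_coe_iff.mp hfin
    refine h1.subset fun x hx => ?_
    show (p : ℤ) • x = 0
    rw [natCast_zsmul]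
    exact hx
  -- the Kummer sequence
  have hκzero : ∀ w : 𝒪 ⊗[ℤ] Λ, (κ 0).baseChange 𝒪 w = 0 := by
    have h0 : κ 0 = 0 := by
      apply LinearMap.ext
      intro x
      rw [LinearMap.zero_apply, hκ0 0 x]
      exact ⟨x, by rw [pow_zero, one_smul]⟩
    intro w
    rw [h0, LinearMap.baseChange_zero, LinearMap.zero_apply]
  have hκsucc : ∀ (n : ℕ) (w : 𝒪 ⊗[ℤ] Λ),
      (p : 𝒪) • (κ (n + 1)).baseChange 𝒪 w = (κ n).baseChange 𝒪 w := by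
    intro n w
    have h1 : (p : ℤ) • κ (n + 1) = κ n := LinearMap.ext fun x => hκs n x
    have h2 : ((p : ℤ) : 𝒪) • (κ (n + 1)).baseChange 𝒪 w
        = (p : ℤ) • (κ (n + 1)).baseChange 𝒪 w := intCast_smul_tensor _ _
    rw [Int.cast_natCast] at h2
    rw [h2, ← LinearMap.smul_apply, ← LinearMap.baseChange_smul, h1]
  obtain ⟨n₀, hn₀⟩ := exists_baseChange_ne_zero (𝒪 := 𝒪) hp𝒪 κ hκ0 v hv
  obtain ⟨m₀, rfl⟩ : ∃ m₀, n₀ = m₀ + 1 := by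
    cases n₀ with
    | zero => exact absurd (hκzero v) hn₀
    | succ m => exact ⟨m, rfl⟩
  let seq : ℕ → 𝒪 ⊗[ℤ] J := fun n => (κ (n + 1)).baseChange 𝒪 v
  have hseq0 : (p : 𝒪) • seq 0 = 0 := by
    show (p : 𝒪) • (κ (0 + 1)).baseChange 𝒪 v = 0
    rw [hκsucc 0 v, hκzero v]
  have hseqs : ∀ n, (p : 𝒪) • seq (n + 1) = seq n := fun n => hκsucc (n + 1) v
  have hseqne : seq ≠ 0 := fun h => hn₀ (congrFun h m₀)
  have hseqeig : ∀ i n, H529.tensorOp 𝒪 T' i (seq n) = a i • seq n := by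
    intro i n
    show ((T' i).toIntLinearMap.baseChange 𝒪) ((κ (n + 1)).baseChange 𝒪 v)
      = a i • (κ (n + 1)).baseChange 𝒪 v
    have h1 : T i ∘ₗ κ (n + 1) = κ (n + 1) ∘ₗ TΛ i :=
      LinearMap.ext fun x => (hκT i (n + 1) x).symm
    rw [hT' i, ← LinearMap.comp_apply, ← LinearMap.baseChange_comp, h1,
      LinearMap.baseChange_comp, LinearMap.comp_apply, hva i, map_smul]
  obtain ⟨M, i1, i2, i3, i4, ρ, hnt, hcont, hunr, hquad⟩ :=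
    H529.exists_adic_galois_eigenmodule p 𝒪 J T' a hp𝒪 hp.ne_zero
      (fun i γ x => hTG i γ x) hfin'
      (fun x hx => hsmooth x ((htors x).mp hx)) seq hseq0 hseqs hseqne hseqeig
  refine ⟨M, i1, i2, i3, i4, ρ, hnt, hcont, ?_, ?_⟩
  · intro σ hσ
    exact hunr σ fun x hx => hσ x ((htors x).mp hx)
  · intro σ i c hσ
    exact hquad σ i c fun x hx => hσ x ((htors x).mp hx)

end Main

end Fermat.Agent.S30.H649
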